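/-
[22c-GAL-ADAPT] (helper49): Galois-correspondence adapters for the unit module
`Rep.ofAlgebraAutOnUnits F E`, part (R): restriction to a subgroup `H ≤ Gal(E/F)` is the unit
module of `E` over the fixed field of `H`; Hilbert 90 for every subgroup.
-/
import Mathlib

set_option autoImplicit false

open CategoryTheory groupCohomology IntermediateField

namespace Fermat.Agent.S55.GalAdapt49.Res

variable {F E : Type} [Field F] [Field E] [Algebra F E] [FiniteDimensional F E]

/-- The unit module `Eˣ` of a field extension, as a `ℤ`-linear representation of `Gal(E/F)`. -/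
noncomputable abbrev U (F E : Type) [Field F] [Field E] [Algebra F E] : Rep ℤ (E ≃ₐ[F] E) :=
  Rep.ofAlgebraAutOnUnits F E

/-- `H ≃* Gal(E / E^H)` (Mathlib's `subgroupEquivAlgEquiv`), as a monoid hom. -/
noncomputable abbrev fixHom (H : Subgroup (E ≃ₐ[F] E)) :
    ↥H →* (E ≃ₐ[fixedField H] E) :=
  (subgroupEquivAlgEquiv H).toMonoidHom

lemma fixHom_apply (H : Subgroup (E ≃ₐ[F] E)) (h : H) (x : E) :
    fixHom H h x = (h : E ≃ₐ[F] E) x := rfl

lemma fixHom_bijective (H : Subgroup (E ≃ₐ[F] E)) : Function.Bijective (fixHom H) :=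
  (subgroupEquivAlgEquiv H).bijective

/-- Restriction of the unit module to `H` is the unit module over the fixed field of `H`,
restricted along `H ≃* Gal(E / E^H)`. -/
noncomputable def resIso (H : Subgroup (E ≃ₐ[F] E)) :
    Rep.res H.subtype (U F E) ≅ Rep.res (fixHom H) (U (fixedField H) E) :=
  Rep.mkIso
    { toLinearEquiv := LinearEquiv.refl ℤ _
      isIntertwining' := fun h => by
        ext x
        rfl }

/-- **Hilbert 90 for every subgroup**, cocycle form: a multiplicative `1`-cocycle of
`H ≤ Gal(E/F)` with values in `Eˣ` is a coboundary. -/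
theorem isMulCoboundary₁_of_subgroup (H : Subgroup (E ≃ₐ[F] E)) (f : H → Eˣ)
    (hf : IsMulCocycle₁ f) : IsMulCoboundary₁ f := by
  let e := subgroupEquivAlgEquiv H
  have hf' : IsMulCocycle₁ (fun g : E ≃ₐ[fixedField H] E => f (e.symm g)) := by
    intro g h
    have := hf (e.symm g) (e.symm h)
    simp only [map_mul]
    rw [this]
    congr 1
  obtain ⟨β, hβ⟩ := isMulCoboundary₁_of_isMulCocycle₁_of_aut_to_units _ hf'
  refine ⟨β, fun h => ?_⟩
  have := hβ (e h)
  simp only [MulEquiv.symm_apply_apply] at this
  rw [← this]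
  rfl

/-- **Hilbert 90 for every subgroup**: `H¹(H, Eˣ) = 0` for every `H ≤ Gal(E/F)`. -/
instance subsingleton_H1_res (H : Subgroup (E ≃ₐ[F] E)) :
    Subsingleton (H1 (Rep.res H.subtype (U F E))) := by
  refine ⟨fun a b => ?_⟩
  have key : ∀ a : H1 (Rep.res H.subtype (U F E)), a = 0 := fun a =>
    H1_induction_on a fun x => (H1π_eq_zero_iff _).2 <| by
      refine (coboundariesOfIsMulCoboundary₁ (G := H) (M := Eˣ) ?_).2
      exact isMulCoboundary₁_of_subgroup H _
        (isMulCocycle₁_of_mem_cocycles₁ (G := H) (M := Eˣ) x.1 x.2)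
  rw [key a, key b]

/-- **Hilbert 90 for every subgroup**, `IsZero` form (hypothesis `h1` of the degree-`2`
inflation-restriction sequences `InfRes9.H2InfRes_exact` / `InfRes98` / `Devissage38`). -/
theorem isZero_H1_res (H : Subgroup (E ≃ₐ[F] E)) :
    Limits.IsZero (groupCohomology (Rep.res H.subtype (U F E)) 1) :=
  ModuleCat.isZero_of_subsingleton _

omit [FiniteDimensional F E] in
/-- the `H`-invariants of the unit module are the units of the fixed field of `H`. -/
theorem mem_invariants_res_iff (H : Subgroup (E ≃ₐ[F] E)) (x : Additive Eˣ) :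
    x ∈ (Rep.res H.subtype (U F E)).ρ.invariants ↔
      ((Additive.toMul x : Eˣ) : E) ∈ fixedField H := by
  constructor
  · intro hx h
    have := hx h
    exact congrArg (fun y : Additive Eˣ => ((Additive.toMul y : Eˣ) : E)) this
  · intro hx h
    apply Additive.toMul.injective
    apply Units.ext
    exact hx h

/-- the norm of the `H`-module `Eˣ` is the field norm to the fixed field of `H`. -/
theorem prod_smul_eq_norm [IsGalois F E] (H : Subgroup (E ≃ₐ[F] E)) [Fintype H] (x : E) :
    ∏ h : H, (h : E ≃ₐ[F] E) x = algebraMap (fixedField H) E (Algebra.norm (fixedField H) x) := by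
  rw [Algebra.norm_eq_prod_automorphisms]
  exact Fintype.prod_equiv (subgroupEquivAlgEquiv H).toEquiv _ _ (fun h => rfl)

end Fermat.Agent.S55.GalAdapt49.Res
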