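/-
S55 / 22c-GAL-ADAPT + 10h-LEVEL-COLIM (helper49): the Galois instance of the finite layers.

`Ω / K₀` a Galois extension (possibly infinite: `PadicAlgCl q / ℚ_[q]`, `AlgebraicClosure ℚ / ℚ`),
`E` an intermediate field, normal over `K₀`.  Then the layer of the unit module `Ωˣ` at the level
`E.fixingSubgroup` is the unit module `Eˣ` of the finite Galois group `Gal(E/K₀)`:
`(Ωˣ)^{Gal(Ω/E)} = Eˣ` as modules over `Gal(Ω/K₀) ⧸ Gal(Ω/E) ≃* Gal(E/K₀)`.
-/
import Mathlib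

set_option autoImplicit false

open CategoryTheory IntermediateField

noncomputable section

namespace Fermat.Agent.S55.GalAdapt49.Inf

variable {K₀ Ω : Type} [Field K₀] [Field Ω] [Algebra K₀ Ω] [IsGalois K₀ Ω]
  (E : IntermediateField K₀ Ω) [Normal K₀ E]

/-- The unit module `Ωˣ` of a field extension, as a `ℤ`-linear representation of `Gal(Ω/K₀)`. -/
abbrev U (K₀ Ω : Type) [Field K₀] [Field Ω] [Algebra K₀ Ω] : Rep ℤ (Ω ≃ₐ[K₀] Ω) :=
  Rep.ofAlgebraAutOnUnits K₀ Ω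

instance fixingSubgroup_normal : E.fixingSubgroup.Normal := by
  rw [← E.restrictNormalHom_ker]
  exact MonoidHom.normal_ker _

/-- `Gal(Ω/K₀) ⧸ Gal(Ω/E) ≃* Gal(E/K₀)` (restriction). -/
def quotEquiv : (Ω ≃ₐ[K₀] Ω) ⧸ E.fixingSubgroup ≃* (E ≃ₐ[K₀] E) :=
  QuotientGroup.liftEquiv _ (AlgEquiv.restrictNormalHom_surjective Ω)
    (E.restrictNormalHom_ker.symm)

lemma quotEquiv_mk (g : Ω ≃ₐ[K₀] Ω) :
    quotEquiv E (g : (Ω ≃ₐ[K₀] Ω) ⧸ E.fixingSubgroup) = AlgEquiv.restrictNormalHom E g := rfl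

lemma quotEquiv_mk_apply (g : Ω ≃ₐ[K₀] Ω) (x : E) :
    ((quotEquiv E (g : (Ω ≃ₐ[K₀] Ω) ⧸ E.fixingSubgroup) x : E) : Ω) = g x := by
  rw [quotEquiv_mk]
  exact AlgEquiv.restrictNormal_commutes g E x

omit [Normal K₀ E] in
/-- an element of `Ω` fixed by `Gal(Ω/E)` lies in `E` -/
lemma mem_of_fixed {y : Ω} (hy : ∀ s ∈ E.fixingSubgroup, s y = y) : y ∈ E := by
  rw [← InfiniteGalois.fixedField_fixingSubgroup E, IntermediateField.mem_fixedField_iff]
  exact hy

/-- the carrier of the layer of `Ωˣ` at the level `Gal(Ω/E)` -/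
abbrev layerCarrier : Submodule ℤ (Additive Ωˣ) :=
  Representation.invariants (MonoidHom.comp (U K₀ Ω).ρ E.fixingSubgroup.subtype)

omit [Normal K₀ E] in
lemma val_mem_of_mem_layerCarrier {x : Additive Ωˣ} (hx : x ∈ layerCarrier E) :
    ((Additive.toMul x : Ωˣ) : Ω) ∈ E := by
  apply mem_of_fixed E
  intro s hs
  have := hx ⟨s, hs⟩
  exact congrArg (fun y : Additive Ωˣ => ((Additive.toMul y : Ωˣ) : Ω)) this

omit [Normal K₀ E] in
lemma inv_mem_of_mem_layerCarrier {x : Additive Ωˣ} (hx : x ∈ layerCarrier E) :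
    (((Additive.toMul x : Ωˣ)⁻¹ : Ωˣ) : Ω) ∈ E := by
  rw [Units.val_inv_eq_inv_val]
  exact E.inv_mem (val_mem_of_mem_layerCarrier E hx)

/-- `Eˣ → (Ωˣ)^{Gal(Ω/E)}` -/
def toLayer : Additive Eˣ →+ layerCarrier E where
  toFun u := ⟨Additive.ofMul (Units.map (algebraMap E Ω : E →* Ω) (Additive.toMul u)), by
    intro s
    apply Additive.toMul.injective
    apply Units.ext
    exact s.2 ⟨_, (Additive.toMul u : Eˣ).val.2⟩⟩
  map_zero' := by
    apply Subtype.ext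
    simp
  map_add' u v := by
    apply Subtype.ext
    simp

/-- `(Ωˣ)^{Gal(Ω/E)} → Eˣ` -/
def ofLayer (x : layerCarrier E) : Additive Eˣ :=
  Additive.ofMul
    { val := ⟨_, val_mem_of_mem_layerCarrier E x.2⟩
      inv := ⟨_, inv_mem_of_mem_layerCarrier E x.2⟩
      val_inv := Subtype.ext (Additive.toMul x.1 : Ωˣ).val_inv
      inv_val := Subtype.ext (Additive.toMul x.1 : Ωˣ).inv_val }

omit [Normal K₀ E] in
lemma toLayer_ofLayer (x : layerCarrier E) : toLayer E (ofLayer E x) = x := by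
  apply Subtype.ext
  apply Additive.toMul.injective
  apply Units.ext
  rfl

omit [Normal K₀ E] in
lemma ofLayer_toLayer (u : Additive Eˣ) : ofLayer E (toLayer E u) = u := by
  apply Additive.toMul.injective
  apply Units.ext
  apply Subtype.ext
  rfl

omit [IsGalois K₀ Ω] [Normal K₀ E] in
lemma coe_toLayer (u : Additive Eˣ) :
    ((Additive.toMul (toLayer E u).1 : Ωˣ) : Ω) = ((Additive.toMul u : Eˣ) : E) := rfl

/-- the linear equivalence `(Ωˣ)^{Gal(Ω/E)} ≃ Eˣ` -/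
def layerLinearEquiv : layerCarrier E ≃ₗ[ℤ] Additive Eˣ :=
  (AddEquiv.toIntLinearEquiv
    { toFun := toLayer E
      invFun := ofLayer E
      left_inv := ofLayer_toLayer E
      right_inv := toLayer_ofLayer E
      map_add' := (toLayer E).map_add }).symm

omit [Normal K₀ E] in
lemma coe_layerLinearEquiv (x : layerCarrier E) :
    (((Additive.toMul (layerLinearEquiv E x) : Eˣ) : E) : Ω) = ((Additive.toMul x.1 : Ωˣ) : Ω) := rfl

omit [Normal K₀ E] in
lemma coe_layerLinearEquiv_symm (u : Additive Eˣ) :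
    ((Additive.toMul ((layerLinearEquiv E).symm u).1 : Ωˣ) : Ω) = ((Additive.toMul u : Eˣ) : E) :=
  rfl

/-- equivariance of `(Ωˣ)^{Gal(Ω/E)} ≃ Eˣ` -/
lemma layerLinearEquiv_comm (x : (Ω ≃ₐ[K₀] Ω) ⧸ E.fixingSubgroup) :
    (layerLinearEquiv E : layerCarrier E →ₗ[ℤ] Additive Eˣ) ∘ₗ
        ((U K₀ Ω).quotientToInvariants E.fixingSubgroup).ρ x =
      (U K₀ E).ρ (quotEquiv E x) ∘ₗ (layerLinearEquiv E : layerCarrier E →ₗ[ℤ] Additive Eˣ) := by
  obtain ⟨g, rfl⟩ := QuotientGroup.mk_surjective x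
  refine LinearMap.ext fun y => ?_
  apply Additive.toMul.injective
  apply Units.ext
  apply Subtype.ext
  refine Eq.trans (b := g ((Additive.toMul y.1 : Ωˣ) : Ω)) rfl ?_
  refine Eq.trans (quotEquiv_mk_apply E g
    ((Additive.toMul (layerLinearEquiv E y) : Eˣ) : E)).symm ?_
  rfl

/-- **the layer of the unit module at the level `Gal(Ω/E)` is the unit module of `E`**:
`(Ωˣ)^{Gal(Ω/E)} ≅ Eˣ` as representations of `Gal(Ω/K₀) ⧸ Gal(Ω/E) ≃* Gal(E/K₀)`. -/
def layerIso :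
    (U K₀ Ω).quotientToInvariants E.fixingSubgroup ≅
      Rep.res (quotEquiv E).toMonoidHom (U K₀ E) :=
  Rep.mkIso
    { toLinearEquiv := layerLinearEquiv E
      isIntertwining' := fun x => layerLinearEquiv_comm E x }

/-- **cohomology of the layer** `Hⁿ(Gal(Ω/K₀) ⧸ Gal(Ω/E), (Ωˣ)^{Gal(Ω/E)}) ≅ Hⁿ(Gal(E/K₀), Eˣ)`
(Mathlib's `groupCohomology.mapIso` along `quotEquiv E` and `layerLinearEquiv E`). -/
def layerCohomologyIso (n : ℕ) :
    groupCohomology ((U K₀ Ω).quotientToInvariants E.fixingSubgroup) n ≅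
      groupCohomology (U K₀ E) n :=
  groupCohomology.mapIso (quotEquiv E) (layerLinearEquiv E) (layerLinearEquiv_comm E) n

end Fermat.Agent.S55.GalAdapt49.Inf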