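/-
S55 / 10h-LEVEL-COLIM (G1) (helper49): the Galois form of the transition maps.

`Ω / K₀` Galois (possibly infinite), `E ≤ E'` intermediate fields, normal over `K₀`.  Under
`GalAdapt49.Inf.layerCohomologyIso` the transition map
`trans₂ : H²(G ⧸ G_E, (Ωˣ)^{G_E}) → H²(G ⧸ G_{E'}, (Ωˣ)^{G_{E'}})` of `LevelColim49` is the classical
inflation `H²(Gal(E/K₀), Eˣ) → H²(Gal(E'/K₀), E'ˣ)` (Mathlib's `groupCohomology.map` along the
restriction `Gal(E'/K₀) → Gal(E/K₀)` and the inclusion `Eˣ ⊆ E'ˣ`).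
Hilbert 90 for the layers, hence `infl₂` is injective on unit modules (`Br(E/K₀) ↪ Br(K₀)`).
-/
import Fermat.Agent.S55.GalAdapt49.Inf
import Fermat.Agent.S55.GalAdapt49.Res
import Fermat.Agent.S55.LevelColim49.InfRes

set_option autoImplicit false

open CategoryTheory groupCohomology IntermediateField

noncomputable section

namespace Fermat.Agent.S55.GalAdapt49.Trans

open Fermat.Agent.S55.GalAdapt49.Inf Fermat.Agent.S55.LevelColim49 Fermat.Agent.S55.Profin15

variable {K₀ Ω : Type} [Field K₀] [Field Ω] [Algebra K₀ Ω] [IsGalois K₀ Ω]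
  {E E' : IntermediateField K₀ Ω} [Normal K₀ E] [Normal K₀ E'] (h : E ≤ E')

omit [IsGalois K₀ Ω] [Normal K₀ E] [Normal K₀ E'] in
include h in
lemma fixingSubgroup_le' : E'.fixingSubgroup ≤ E.fixingSubgroup :=
  IntermediateField.fixingSubgroup_antitone h

/-- restriction `Gal(E'/K₀) →* Gal(E/K₀)` for `E ≤ E'` normal over `K₀` -/
def restr : (E' ≃ₐ[K₀] E') →* (E ≃ₐ[K₀] E) :=
  (quotEquiv E).toMonoidHom.comp
    ((proj (fixingSubgroup_le' h)).comp (quotEquiv E').symm.toMonoidHom)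

lemma restr_quotEquiv (g : Ω ≃ₐ[K₀] Ω) :
    restr h (quotEquiv E' (g : (Ω ≃ₐ[K₀] Ω) ⧸ E'.fixingSubgroup)) =
      quotEquiv E (g : (Ω ≃ₐ[K₀] Ω) ⧸ E.fixingSubgroup) := by
  simp [restr]

/-- `restr h σ` is the restriction of `σ` to `E` -/
lemma restr_apply (σ : E' ≃ₐ[K₀] E') (x : E) :
    ((restr h σ x : E) : Ω) = ((σ ⟨x, h x.2⟩ : E') : Ω) := by
  obtain ⟨γ, rfl⟩ := (quotEquiv E').surjective σ
  obtain ⟨g, rfl⟩ := QuotientGroup.mk_surjective γ
  rw [restr_quotEquiv, quotEquiv_mk_apply]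
  exact (quotEquiv_mk_apply E' g ⟨x, h x.2⟩).symm

/-- the inclusion `Eˣ → E'ˣ` -/
def unitsInclLin : Additive Eˣ →ₗ[ℤ] Additive E'ˣ :=
  (MonoidHom.toAdditive
    (Units.map ((IntermediateField.inclusion h : E →ₐ[K₀] E') : E →* E'))).toIntLinearMap

omit [IsGalois K₀ Ω] [Normal K₀ E] [Normal K₀ E'] in
lemma coe_unitsInclLin (u : Additive Eˣ) :
    (((Additive.toMul (unitsInclLin h u) : E'ˣ) : E') : Ω) = ((Additive.toMul u : Eˣ) : E) := rfl

/-- the inclusion `Eˣ → E'ˣ` as a morphism of representations of `Gal(E'/K₀)` -/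
def unitsInclHom : Rep.res (restr h) (U K₀ E) ⟶ U K₀ E' :=
  Rep.ofHom ⟨unitsInclLin h, fun σ => by
    refine LinearMap.ext fun u => ?_
    apply Additive.toMul.injective
    apply Units.ext
    apply Subtype.ext
    exact restr_apply h σ ((Additive.toMul u : Eˣ) : E)⟩

/-- **classical inflation** `Hⁿ(Gal(E/K₀), Eˣ) ⟶ Hⁿ(Gal(E'/K₀), E'ˣ)` -/
abbrev galInfl (n : ℕ) : groupCohomology (U K₀ E) n ⟶ groupCohomology (U K₀ E') n :=
  map (restr h) (unitsInclHom h) n

/-- **the transition maps of the unit module are the classical inflation maps** (morphism form) -/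
theorem layerCohomologyIso_comp_galInfl (n : ℕ) :
    (layerCohomologyIso E n).hom ≫ galInfl h n =
      map (proj (fixingSubgroup_le' h)) (inclLayerHom (U K₀ Ω) (fixingSubgroup_le' h)) n ≫
        (layerCohomologyIso E' n).hom := by
  unfold layerCohomologyIso galInfl
  rw [mapIso_hom, mapIso_hom, ← map_comp, ← map_comp]
  have hfg : ((quotEquiv E).symm : (E ≃ₐ[K₀] E) →* _).comp (restr h) =
      (proj (fixingSubgroup_le' h)).comp ((quotEquiv E').symm : (E' ≃ₐ[K₀] E') →* _) := by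
    ext σ
    simp [restr]
  exact map_congr hfg rfl n

/-- **`trans₂` is the classical inflation** under `layerCohomologyIso` -/
theorem layerCohomologyIso_trans₂
    (x : H2 ((U K₀ Ω).quotientToInvariants E.fixingSubgroup)) :
    (layerCohomologyIso E' 2).hom.hom (trans₂ (U K₀ Ω) (fixingSubgroup_le' h) x) =
      (galInfl h 2).hom ((layerCohomologyIso E 2).hom.hom x) := by
  rw [trans₂_eq_map]
  exact (congrArg (fun ψ => ψ.hom x) (layerCohomologyIso_comp_galInfl h 2)).symm

/-- **`trans₁` is the classical inflation** under `layerCohomologyIso` -/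
theorem layerCohomologyIso_trans₁
    (x : H1 ((U K₀ Ω).quotientToInvariants E.fixingSubgroup)) :
    (layerCohomologyIso E' 1).hom.hom (trans₁ (U K₀ Ω) (fixingSubgroup_le' h) x) =
      (galInfl h 1).hom ((layerCohomologyIso E 1).hom.hom x) := by
  rw [trans₁_eq_map]
  exact (congrArg (fun ψ => ψ.hom x) (layerCohomologyIso_comp_galInfl h 1)).symm

end Fermat.Agent.S55.GalAdapt49.Trans
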