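/-
S55 / 10h-LEVEL-COLIM (helper49): Hilbert 90 on the layers of the unit module, and injectivity of
the inflation maps `H²(Gal(E/K₀), Eˣ) → level-H²(Gal(Ω/K₀), Ωˣ)` (`Br(E/K₀) ↪ Br(K₀)`).
-/
import Fermat.Agent.S55.GalAdapt49.Trans

set_option autoImplicit false

open CategoryTheory groupCohomology IntermediateField Limits

noncomputable section

namespace Fermat.Agent.S55.GalAdapt49.Brauer

open Fermat.Agent.S55.GalAdapt49.Inf Fermat.Agent.S55.GalAdapt49.Trans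
  Fermat.Agent.S55.LevelColim49 Fermat.Agent.S55.Profin15

variable {K₀ Ω : Type} [Field K₀] [Field Ω] [Algebra K₀ Ω] [IsGalois K₀ Ω]

section H90

variable (E' : IntermediateField K₀ Ω) [Normal K₀ E'] [FiniteDimensional K₀ E']

/-- **Hilbert 90 on the layers**: for every subgroup `N` of the finite quotient
`Gal(Ω/K₀) ⧸ Gal(Ω/E')`, `H¹(N, (Ωˣ)^{Gal(Ω/E')}) = 0`. -/
theorem isZero_H1_res_layer (N : Subgroup ((Ω ≃ₐ[K₀] Ω) ⧸ E'.fixingSubgroup)) :
    IsZero (groupCohomology (Rep.res N.subtype (layer (U K₀ Ω) E'.fixingSubgroup)) 1) := by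
  let e : N ≃* (N.map (quotEquiv E').toMonoidHom) := (quotEquiv E').subgroupMap N
  have iso := mapIso (A := Rep.res (N.map (quotEquiv E').toMonoidHom).subtype (U K₀ E'))
    (B := Rep.res N.subtype (layer (U K₀ Ω) E'.fixingSubgroup)) e (layerLinearEquiv E')
    (fun g => layerLinearEquiv_comm E' g.1) 1
  exact IsZero.of_iso (Res.isZero_H1_res (N.map (quotEquiv E').toMonoidHom)) iso

end H90

section Inj

variable (𝒰 : LevelStr (Ω ≃ₐ[K₀] Ω))
  (h𝒰 : ∀ V ∈ 𝒰.levels, ∃ E' : IntermediateField K₀ Ω, FiniteDimensional K₀ E' ∧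
    V = E'.fixingSubgroup)
  (hsm : 𝒰.IsSmooth (U K₀ Ω))

include h𝒰 hsm in
/-- **`Br(E/K₀) ↪ Br(K₀)`**: for a level structure whose levels are fixing subgroups of finite
subextensions, the inflation `H²(G ⧸ W, (Ωˣ)^W) → 𝒰.H2 Ωˣ` is injective. -/
theorem infl₂_injective_units {W : Subgroup (Ω ≃ₐ[K₀] Ω)} [W.Normal] (hW : W ∈ 𝒰.levels) :
    Function.Injective (infl₂ (U K₀ Ω) 𝒰 hW) := by
  refine infl₂_injective 𝒰 hsm hW (fun V hVn hV _ => ?_)
  obtain ⟨E', hfin, rfl⟩ := h𝒰 V hV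
  have := hfin
  have : IsGalois K₀ E' := (InfiniteGalois.normal_iff_isGalois E').1 hVn
  exact isZero_H1_res_layer E' (quotSub W E'.fixingSubgroup)

end Inj

end Fermat.Agent.S55.GalAdapt49.Brauer
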