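/-
S55 / 10h-LEVEL-COLIM (helper49): the Brauer group of `K₀` as the union of the
`H²(Gal(E/K₀), Eˣ)`, for helper95's intrinsic level structure `KummerBr95.galLevels K₀ Ω`.

`brInfl E : H²(Gal(E/K₀), Eˣ) → (galLevels K₀ Ω).H2 Ωˣ` (`E/K₀` finite normal inside `Ω`) is
injective, compatible with the classical inflation maps `galInfl`, and jointly surjective.
-/
import Fermat.Agent.S55.GalAdapt49.Brauer
import Fermat.Agent.S55.KummerBr95.GalLevels

set_option autoImplicit false

open CategoryTheory groupCohomology IntermediateField Limits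

noncomputable section

namespace Fermat.Agent.S55.GalAdapt49.GalLevels

open Fermat.Agent.S55.GalAdapt49.Inf Fermat.Agent.S55.GalAdapt49.Trans
  Fermat.Agent.S55.GalAdapt49.Brauer
  Fermat.Agent.S55.LevelColim49 Fermat.Agent.S55.Profin15 Fermat.Agent.S55.KummerBr95

variable {K₀ Ω : Type} [Field K₀] [Field Ω] [Algebra K₀ Ω] [IsGalois K₀ Ω]

/-- the unit module is smooth for the Krull level structure -/
theorem isSmooth_units : (galLevels K₀ Ω).IsSmooth (U K₀ Ω) := by
  intro m
  let x : Ω := ((Additive.toMul m : Ωˣ) : Ω)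
  have : FiniteDimensional K₀ (K₀⟮x⟯) :=
    IntermediateField.adjoin.finiteDimensional (Algebra.IsIntegral.isIntegral x)
  obtain ⟨V, hV, hle⟩ := exists_galLevel_le (K₀⟮x⟯)
  refine ⟨V, hV, fun s hs => ?_⟩
  have hx : s x = x := by
    have := hle hs
    rw [IntermediateField.mem_fixingSubgroup_iff] at this
    exact this x (IntermediateField.mem_adjoin_simple_self K₀ x)
  apply Additive.toMul.injective
  apply Units.ext
  exact hx

theorem galLevels_finite (V : Subgroup (Ω ≃ₐ[K₀] Ω)) (hV : V ∈ (galLevels K₀ Ω).levels) :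
    ∃ E' : IntermediateField K₀ Ω, FiniteDimensional K₀ E' ∧ V = E'.fixingSubgroup :=
  hV.2

section Br

variable (E : IntermediateField K₀ Ω) [Normal K₀ E] [FiniteDimensional K₀ E]

theorem fixingSubgroup_mem_galLevels : E.fixingSubgroup ∈ (galLevels K₀ Ω).levels :=
  ⟨inferInstance, E, inferInstance, rfl⟩

/-- **`H²(Gal(E/K₀), Eˣ) → Br(K₀)`** -/
def brInfl : H2 (U K₀ E) →ₗ[ℤ] (galLevels K₀ Ω).H2 (U K₀ Ω) :=
  infl₂ (U K₀ Ω) (galLevels K₀ Ω) (fixingSubgroup_mem_galLevels E) ∘ₗ
    (layerCohomologyIso E 2).inv.hom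

lemma brInfl_layerCohomologyIso (x : H2 ((U K₀ Ω).quotientToInvariants E.fixingSubgroup)) :
    brInfl E ((layerCohomologyIso E 2).hom.hom x) =
      infl₂ (U K₀ Ω) (galLevels K₀ Ω) (fixingSubgroup_mem_galLevels E) x := by
  unfold brInfl
  rw [LinearMap.comp_apply]
  congr 1
  exact congrArg (fun ψ => ψ.hom x) (layerCohomologyIso E 2).hom_inv_id

/-- **`Br(E/K₀) ↪ Br(K₀)`** -/
theorem brInfl_injective : Function.Injective (brInfl E) := by
  intro x y hxy
  have hinj := infl₂_injective_units (galLevels K₀ Ω) galLevels_finite isSmooth_units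
    (fixingSubgroup_mem_galLevels E)
  have := hinj hxy
  have h2 := congrArg (layerCohomologyIso E 2).hom.hom this
  have hid : ∀ z, (layerCohomologyIso E 2).hom.hom ((layerCohomologyIso E 2).inv.hom z) = z :=
    fun z => congrArg (fun ψ => ψ.hom z) (layerCohomologyIso E 2).inv_hom_id
  rwa [hid, hid] at h2

variable {E} {E' : IntermediateField K₀ Ω} [Normal K₀ E'] [FiniteDimensional K₀ E'] (h : E ≤ E')

/-- `brInfl` is compatible with the classical inflation maps -/
theorem brInfl_galInfl (x : H2 (U K₀ E)) : brInfl E' ((galInfl h 2).hom x) = brInfl E x := by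
  obtain ⟨y, rfl⟩ : ∃ y, (layerCohomologyIso E 2).hom.hom y = x :=
    ⟨(layerCohomologyIso E 2).inv.hom x,
      congrArg (fun ψ => ψ.hom x) (layerCohomologyIso E 2).inv_hom_id⟩
  rw [← layerCohomologyIso_trans₂, brInfl_layerCohomologyIso, brInfl_layerCohomologyIso,
    infl₂_trans₂]

end Br

/-- **`Br(K₀) = ⋃_E Br(E/K₀)`**: every class of the level `H²` of `Ωˣ` comes from a finite normal
layer. -/
theorem exists_brInfl_eq (y : (galLevels K₀ Ω).H2 (U K₀ Ω)) :
    ∃ (E : IntermediateField K₀ Ω) (_ : Normal K₀ E) (_ : FiniteDimensional K₀ E)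
      (x : H2 (U K₀ E)), brInfl E x = y := by
  obtain ⟨U₀, hU₀⟩ := (galLevels K₀ Ω).nonempty
  obtain ⟨W, hWn, hW, _, x, hx⟩ := exists_infl₂_eq (galLevels K₀ Ω) isSmooth_units y hU₀
  obtain ⟨E, hfin, rfl⟩ := galLevels_finite W hW
  have hgal : IsGalois K₀ E := (InfiniteGalois.normal_iff_isGalois E).1 hWn
  have hn : Normal K₀ E := inferInstance
  refine ⟨E, hn, hfin, (layerCohomologyIso E 2).hom.hom x, ?_⟩
  rw [brInfl_layerCohomologyIso]
  exact hx

end Fermat.Agent.S55.GalAdapt49.GalLevels
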